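import Fermat.Prelude.Def_ModularCurve_ReductionModL

/-!
# ES library: the statement of the Key Injectivity Lemma (KIL), as a definition
-/

set_option autoImplicit false

open AlgebraicCurve ModularCurve

namespace Fermat.Agent.ESlib

/-- **KIL** at level `N`, for the valuation subring `A` of `ℚ̄` and the exponent `m`:
if `y₁, y₂ ∈ A((q))` lie in `F_ℚ̄(N)`, have the same nonzero reduction, and `y₁/y₂` has all its
orders divisible by `m`, then `y₁/y₂` is an `m`-th power in `F_ℚ̄(N)`. -/
def KILAt (N : ℕ) (A : ValuationSubring (AlgebraicClosure ℚ)) (m : ℕ) : Prop :=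
  ∀ (y₁ y₂ : LaurentSeries A)
    (h₁ : coeffMap A.subtype y₁ ∈ modularFunctionFieldBar N)
    (h₂ : coeffMap A.subtype y₂ ∈ modularFunctionFieldBar N),
    coeffMap (IsLocalRing.residue A) y₁ = coeffMap (IsLocalRing.residue A) y₂ →
    coeffMap (IsLocalRing.residue A) y₁ ≠ 0 →
    (∀ P : Place (AlgebraicClosure ℚ) (modularFunctionFieldBar N),
      (m : ℤ) ∣ P.ord (⟨_, h₁⟩ : modularFunctionFieldBar N) -
        P.ord (⟨_, h₂⟩ : modularFunctionFieldBar N)) →
    ∃ ψ : modularFunctionFieldBar N,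
      ψ ^ m * (⟨_, h₂⟩ : modularFunctionFieldBar N) = ⟨_, h₁⟩

end Fermat.Agent.ESlib
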