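import Fermat.Agent.ES.K.PlaceExist
import Fermat.Agent.S28.Key
import Fermat.Agent.S24.Complete
import Fermat.Prelude.Def_ModularCurve_ReductionModL
import Fermat.Prelude.Def_FLTPrelim_Ramification

/-!
# ES, part K: `F_k(N)` is a function field in one variable (any characteristic prime to `N`);
functions without zeros and poles are constant
-/

set_option autoImplicit false
set_option linter.unusedSectionVars false

open AlgebraicCurve ModularCurve Polynomial IntermediateField Fermat.Agent.S28lib

namespace Fermat.Agent.ESlib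

section abstract

variable {K F : Type*} [Field K] [Field F] [Algebra K F]

/-- a bound for the families which are independent over `K[x]` gives finite dimensionality over
`K(x)` -/
theorem finiteDimensional_adjoin_of_bound (x : F) (hx : Transcendental K x) (n : ℕ)
    (H : ∀ (m : ℕ) (y : Fin m → F),
      (∀ P : Fin m → K[X], ∑ i, aeval x (P i) * y i = 0 → ∀ i, P i = 0) → m ≤ n) :
    FiniteDimensional K⟮x⟯ F := by
  classical
  have hrank : Module.rank K⟮x⟯ F ≤ (n : ℕ) := by
    apply rank_le
    intro s hs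
    let e := s.equivFin
    refine H s.card (fun i => ((e.symm i : s) : F)) ?_
    intro P hP
    have hs' : LinearIndependent K⟮x⟯ (fun i : Fin s.card => ((e.symm i : s) : F)) :=
      hs.comp _ e.symm.injective
    rw [Fintype.linearIndependent_iff] at hs'
    have hmem : ∀ i, aeval x (P i) ∈ K⟮x⟯ := fun i =>
      (mem_adjoin_simple_iff K _).2 ⟨P i, 1, by simp⟩
    have h0 := hs' (fun i => ⟨aeval x (P i), hmem i⟩) (by
      rw [← hP]
      refine Finset.sum_congr rfl fun i _ => ?_
      rw [Algebra.smul_def]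
      rfl)
    intro i
    have h1 : aeval x (P i) = 0 := congrArg Subtype.val (h0 i)
    by_contra hne
    exact hx ⟨P i, hne, h1⟩
  exact Module.rank_lt_aleph0_iff.1 (lt_of_le_of_lt hrank (Cardinal.natCast_lt_aleph0))

end abstract

section ff

variable {k : Type*} [Field k] [IsAlgClosed k]

theorem order_jqModC_ne_zero : (jqModC k).order ≠ 0 := by
  intro h
  have h1 : (jqModC k).coeff (-1) = 0 := HahnSeries.coeff_eq_zero_of_lt_order (by rw [h]; norm_num)
  rw [coeff_jqModC_neg_one] at h1
  exact one_ne_zero h1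

/-- `j` as an element of `F_k(N)` -/
noncomputable def jFull (k : Type*) [Field k] (N : ℕ) : modularFunctionFieldFullC k N :=
  ⟨jqModC k, jqModC_mem_full k N⟩

theorem transcendental_jFull (N : ℕ) : Transcendental k (jFull k N) := by
  have h0 : jFull k N ≠ 0 := by
    intro h
    have : jqModC k = 0 := congrArg Subtype.val h
    exact jqModC_ne_zero_of_nontrivial k this
  obtain ⟨v, n, hn, hv⟩ := Fermat.Agent.S24lib.exists_place_of_emb (K := k)
    ((modularFunctionFieldFullC k N).val) ⟨jFull k N, h0, order_jqModC_ne_zero⟩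
  apply Fermat.Agent.S24RH.transcendental_of_ord_ne_zero v
  intro h
  have := hv _ h0
  rw [h, mul_zero] at this
  exact order_jqModC_ne_zero this

theorem coe_aeval_jFull (N : ℕ) (P : k[X]) :
    ((aeval (jFull k N) P : modularFunctionFieldFullC k N) : LaurentSeries k)
      = evY k (jA k) P := by
  have h1 : ((aeval (jFull k N) P : modularFunctionFieldFullC k N) : LaurentSeries k)
      = aeval (jqModC k) P := by
    have := Polynomial.aeval_algHom_apply (modularFunctionFieldFullC k N).val (jFull k N) P
    exact this.symm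
  rw [h1, evY, Polynomial.coe_eval₂RingHom, Polynomial.aeval_def]
  congr 1
  ext a : 1
  exact Fermat.Agent.S24lib.algebraMap_laurent (K := k) (C := k) a

/-- `F_k(N)` is a function field in one variable over `k` -/
theorem isFF_fullC (N : ℕ) [NeZero N] (hN : (N : k) ≠ 0)
    (hD : ∀ (p : ℕ) (hp : p.Prime), p ∣ N →
      haveI : NeZero p := ⟨hp.ne_zero⟩; Nonempty (ModData k p)) :
    Fermat.Agent.S24RH.IsFF k (modularFunctionFieldFullC k N) := by
  refine ⟨jFull k N, transcendental_jFull N, ?_⟩
  refine finiteDimensional_adjoin_of_bound _ (transcendental_jFull N) (dedekindPsi N) ?_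
  intro m y hy
  refine card_le_of_JIndep (K := k) N hN hD (fun i => (y i : LaurentSeries k)) (fun i => (y i).2) ?_
  intro P hP
  apply hy P
  apply Subtype.ext
  rw [ZeroMemClass.coe_zero, ← hP]
  simp only [AddSubmonoidClass.coe_finsetSum, MulMemClass.coe_mul, coe_aeval_jFull]

/-- `F_k(N)` is a function field in one variable over `k`, `char k = ℓ ∤ N` -/
theorem isFF_fullC_charP (N : ℕ) [NeZero N] (ℓ : ℕ) [Fact ℓ.Prime] [CharP k ℓ] (hℓN : ¬ ℓ ∣ N) :
    Fermat.Agent.S24RH.IsFF k (modularFunctionFieldFullC k N) := by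
  refine isFF_fullC N ?_ ?_
  · intro h
    rw [CharP.cast_eq_zero_iff k ℓ] at h
    exact hℓN h
  · intro p hp hpN
    have : NeZero p := ⟨hp.ne_zero⟩
    obtain ⟨D⟩ := nonempty_modData_zmod hp ℓ (fun h => hℓN (h ▸ hpN))
      (nonempty_modData_rat (nonempty_modData_complex hp))
    exact ⟨D.map (ZMod.castHom (dvd_refl ℓ) k)⟩

/-- **(b)** a function of `F_k(N)` without zeros is constant -/
theorem exists_const_of_forall_ord_eq_zero (N : ℕ) [NeZero N] (ℓ : ℕ) [Fact ℓ.Prime] [CharP k ℓ]
    (hℓN : ¬ ℓ ∣ N) (u : modularFunctionFieldFullC k N)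
    (h : ∀ Q : Place k (modularFunctionFieldFullC k N), Q.ord u = 0) :
    ∃ c : k, u = algebraMap k (modularFunctionFieldFullC k N) c :=
  exists_const_of_forall_ord_le_zero (isFF_fullC_charP N ℓ hℓN) u (fun Q => (h Q).le)

end ff

section residue

variable {L : Type*} [Field L] [IsAlgClosed L] (A : ValuationSubring L)

/-- the residue field of a valuation subring of an algebraically closed field is algebraically
closed -/
instance isAlgClosed_residueField : IsAlgClosed (IsLocalRing.ResidueField A) := by
  apply IsAlgClosed.of_exists_root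
  intro p hp hirr
  obtain ⟨P, hPmap, hPdeg, hPmonic⟩ := Polynomial.lifts_and_degree_eq_and_monic
    ((Polynomial.mem_lifts p).2 (Polynomial.map_surjective _ IsLocalRing.residue_surjective p)) hp
  have hdeg : (P.map A.subtype).degree ≠ 0 := by
    rw [hPmonic.degree_map, hPdeg]
    exact hirr.degree_pos.ne'
  obtain ⟨x, hx⟩ := IsAlgClosed.exists_root _ hdeg
  have hxint : IsIntegral A x := ⟨P, hPmonic, by
    rw [Polynomial.IsRoot.def, Polynomial.eval_map] at hx
    exact hx⟩
  obtain ⟨a, ha⟩ := IsIntegrallyClosed.isIntegral_iff.1 hxint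
  have ha' : (a : L) = x := ha
  refine ⟨IsLocalRing.residue A a, ?_⟩
  rw [← hPmap, Polynomial.eval_map, Polynomial.eval₂_hom]
  have h0 : P.eval a = 0 := by
    apply Subtype.ext
    rw [Polynomial.IsRoot.def, Polynomial.eval_map, ← ha'] at hx
    have h1 := Polynomial.eval₂_hom (p := P) A.subtype a
    rw [ZeroMemClass.coe_zero, ← hx]
    exact h1.symm
  rw [h0, map_zero]

theorem charP_residueField {ℓ : ℕ} [Fact ℓ.Prime] (hA : A.LiesOverPrime ℓ) :
    CharP (IsLocalRing.ResidueField A) ℓ := by
  rw [CharP.charP_iff_prime_eq_zero Fact.out]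
  have h1 : ((ℓ : A) : L) ∈ A.nonunits := by
    have : (ℓ : L) ∈ A.nonunits := hA
    simpa using this
  have h2 : (ℓ : A) ∈ IsLocalRing.maximalIdeal A := ValuationSubring.coe_mem_nonunits_iff.1 h1
  have h3 := (IsLocalRing.residue_eq_zero_iff _).2 h2
  simpa using h3

set_option synthInstance.maxHeartbeats 400000 in
/-- the hypothesis `hconst` of `Glue.s18_of_kil` -/
theorem const_of_ord_eq_zero_residue (N : ℕ) [NeZero N] {ℓ : ℕ} [Fact ℓ.Prime] (hℓN : ¬ ℓ ∣ N)
    (hA : A.LiesOverPrime ℓ) (x : modularFunctionFieldFullC (IsLocalRing.ResidueField A) N)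
    (_hx : x ≠ 0)
    (h : ∀ Q : Place (IsLocalRing.ResidueField A)
      (modularFunctionFieldFullC (IsLocalRing.ResidueField A) N), Q.ord x = 0) :
    ∃ c : IsLocalRing.ResidueField A,
      algebraMap (IsLocalRing.ResidueField A)
        (modularFunctionFieldFullC (IsLocalRing.ResidueField A) N) c = x := by
  have := charP_residueField A hA
  obtain ⟨c, hc⟩ := exists_const_of_forall_ord_eq_zero N ℓ hℓN x h
  exact ⟨c, hc.symm⟩

theorem natCast_residueField_ne_zero (N : ℕ) {ℓ : ℕ} [Fact ℓ.Prime] (hℓN : ¬ ℓ ∣ N)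
    (hA : A.LiesOverPrime ℓ) : (N : IsLocalRing.ResidueField A) ≠ 0 := by
  have := charP_residueField A hA
  intro h
  rw [CharP.cast_eq_zero_iff (IsLocalRing.ResidueField A) ℓ] at h
  exact hℓN h

end residue

end Fermat.Agent.ESlib
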