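import Fermat.Agent.ES.K.Level
import Fermat.Agent.ES.K.ConstL

/-!
# ES, part K: S18 from KIL at the levels divisible by `2` or `3`
-/

set_option autoImplicit false

open AlgebraicCurve ModularCurve

namespace Fermat.Agent.ESlib

/-- What the modular side (abstract KIL + Hauptmoduln of level `2`, `3`) delivers: KIL at all levels
`N'` divisible by `r ∈ {2, 3}`, prime to `ℓ`, for prime exponents `m ≠ ℓ`. -/
def KILHaupt (ℓ : ℕ) (A : ValuationSubring (AlgebraicClosure ℚ)) : Prop :=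
  ∀ (N' r m : ℕ), N' ≠ 0 → (r = 2 ∨ r = 3) → r ∣ N' → ¬ ℓ ∣ N' → m.Prime → m ≠ ℓ → KILAt N' A m

/-- KIL at every level prime to `ℓ` (prime exponents `≠ ℓ`) from KIL at the levels divisible by `2`
or `3`. -/
theorem kilAt_of_kilHaupt {ℓ : ℕ} (hℓ : ℓ.Prime) {A : ValuationSubring (AlgebraicClosure ℚ)}
    (H : KILHaupt ℓ A) (N : ℕ) [NeZero N] (hℓN : ¬ ℓ ∣ N) (m : ℕ) (hm : m.Prime) (hmℓ : m ≠ ℓ) :
    KILAt N A m := by
  -- the choice of the auxiliary prime
  obtain ⟨r, hr23, hrℓ, hcop⟩ : ∃ r : ℕ, (r = 2 ∨ r = 3) ∧ r ≠ ℓ ∧ Nat.Coprime m (r + 1) := by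
    by_cases h2 : ℓ = 2
    · refine ⟨3, Or.inr rfl, by omega, ?_⟩
      have : Nat.Coprime m 2 := (Nat.coprime_primes hm Nat.prime_two).2 (by omega)
      exact Nat.Coprime.pow_right 2 this
    · by_cases h3 : ℓ = 3
      · exact ⟨2, Or.inl rfl, by omega, (Nat.coprime_primes hm Nat.prime_three).2 (by omega)⟩
      · by_cases hm3 : m = 3
        · subst hm3
          exact ⟨3, Or.inr rfl, fun h => h3 h.symm, by decide⟩
        · exact ⟨2, Or.inl rfl, fun h => h2 h.symm, (Nat.coprime_primes hm Nat.prime_three).2 hm3⟩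
  have hr : r.Prime := by
    rcases hr23 with rfl | rfl
    · exact Nat.prime_two
    · exact Nat.prime_three
  by_cases hrN : r ∣ N
  · exact H N r m (NeZero.ne N) hr23 hrN hℓN hm hmℓ
  · refine Level.kilAt_of_mul N r hr hrN A hm.pos hcop ?_
    refine H (N * r) r m (Nat.mul_ne_zero (NeZero.ne N) hr.ne_zero) hr23 (dvd_mul_left r N) ?_ hm hmℓ
    intro h
    rcases (Nat.Prime.dvd_mul hℓ).1 h with h | h
    · exact hℓN h
    · exact hrℓ ((Nat.prime_dvd_prime_iff_eq hℓ hr).1 h).symm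

/-- **S18** from `KILHaupt`. -/
theorem s18_of_kilHaupt (N : ℕ) [NeZero N] {ℓ : ℕ} [Fact ℓ.Prime] (hℓN : ¬ ℓ ∣ N)
    (A : ValuationSubring (AlgebraicClosure ℚ)) (hA : A.LiesOverPrime ℓ) (H : KILHaupt ℓ A)
    (h : ReductionInputsModL A N) (m : ℕ) (hm : ¬ ℓ ∣ m) (z : JZero N)
    (hmz : m • z = 0) (hz : reductionModL A N z = 0) : z = 0 :=
  Glue.s18_of_kil h (fun p hp hpℓ => kilAt_of_kilHaupt Fact.out H N hℓN p hp hpℓ)
    (fun x hx hQ => const_of_ord_eq_zero_residue A N hℓN hA x hx hQ) m hm z hmz hz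

end Fermat.Agent.ESlib
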