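import Fermat.Agent.ES.K.S18Glue
import Fermat.Agent.ES.B.Restrict
import Fermat.Agent.S24.Degree
import Fermat.Agent.S20.CombIndex

/-!
# ES library: descent of KIL from level `N r` to level `N` (norm argument)
-/

set_option autoImplicit false
set_option linter.style.haveILetI false

open AlgebraicCurve ModularCurve IntermediateField

namespace Fermat.Agent.ESlib

noncomputable section

namespace Level

/-- If `x^d` and `x^m` are `m`-th powers and `gcd(m,d) = 1`, then `x` is an `m`-th power. -/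
theorem exists_pow_eq_of_coprime {F : Type*} [Field F] {m d : ℕ} (hm : 0 < m)
    (h : Nat.Coprime m d) {x η : F}
    (hx : x ≠ 0) (hη : η ^ m = x ^ d) : ∃ φ : F, φ ^ m = x := by
  have hb := Nat.gcd_eq_gcd_ab m d
  rw [Nat.Coprime] at h
  rw [h] at hb
  refine ⟨x ^ (Nat.gcdA m d) * η ^ (Nat.gcdB m d), ?_⟩
  have hη0 : η ≠ 0 := by
    rintro rfl
    rw [zero_pow hm.ne'] at hη
    exact (pow_ne_zero d hx) hη.symm
  rw [mul_pow, ← zpow_natCast, ← zpow_natCast, ← zpow_mul, ← zpow_mul, mul_comm (Nat.gcdB m d),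
    zpow_mul η, zpow_natCast, hη, ← zpow_natCast, ← zpow_mul, ← zpow_add₀ hx]
  have : Nat.gcdA m d * (m : ℤ) + (d : ℤ) * Nat.gcdB m d = 1 := by
    push_cast at hb
    linarith
  rw [this, zpow_one]

/-- tower law with two different models of the base field `K(j)` -/
theorem finrank_tower {K F F' : Type*} [Field K] [Field F] [Field F'] [Algebra K F] [Algebra K F']
    [Algebra F F'] [IsScalarTower K F F'] (j : F) :
    Module.finrank K⟮j⟯ F * Module.finrank F F' = Module.finrank K⟮algebraMap F F' j⟯ F' := by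
  rw [Module.finrank_mul_finrank]
  let f : F →ₐ[K] F' := IsScalarTower.toAlgHom K F F'
  have hmap : (K⟮j⟯).map f = K⟮algebraMap F F' j⟯ := by
    rw [IntermediateField.adjoin_map, Set.image_singleton]
    rfl
  let e : K⟮j⟯ ≃+* K⟮algebraMap F F' j⟯ :=
    ((IntermediateField.equivMap K⟮j⟯ f).trans (IntermediateField.equivOfEq hmap)).toRingEquiv
  refine Algebra.finrank_eq_of_equiv_equiv e (RingEquiv.refl F') ?_
  ext x
  rfl

local notation "Qb" => AlgebraicClosure ℚ

theorem bar_le {N M : ℕ} [NeZero N] [NeZero M] (h : N ∣ M) :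
    modularFunctionFieldBar N ≤ modularFunctionFieldBar M := by
  have h1 : modularFunctionFieldFull N ≤ modularFunctionFieldFull M := full_degeneracyC_le ℚ h
  exact IntermediateField.adjoin.mono _ _ _ (Set.image_mono h1)

/-- `[F(N r) : F(N)] = r + 1` for a prime `r ∤ N`. -/
theorem finrank_level (N r : ℕ) [NeZero N] [NeZero (N * r)] (hr : r.Prime) (hrN : ¬ r ∣ N) :
    letI : Algebra (modularFunctionFieldBar N) (modularFunctionFieldBar (N * r)) :=
      (IntermediateField.inclusion (bar_le (dvd_mul_right N r))).toRingHom.toAlgebra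
    Module.finrank (modularFunctionFieldBar N) (modularFunctionFieldBar (N * r)) = r + 1 := by
  letI : Algebra (modularFunctionFieldBar N) (modularFunctionFieldBar (N * r)) :=
    (IntermediateField.inclusion (bar_le (dvd_mul_right N r))).toRingHom.toAlgebra
  haveI : IsScalarTower Qb (modularFunctionFieldBar N) (modularFunctionFieldBar (N * r)) :=
    IsScalarTower.of_algebraMap_eq fun _ => rfl
  have h1 := finrank_tower (K := Qb) (F := modularFunctionFieldBar N)
    (F' := modularFunctionFieldBar (N * r)) (S24lib.J1 N)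
  have h2 : algebraMap (modularFunctionFieldBar N) (modularFunctionFieldBar (N * r)) (S24lib.J1 N) =
      S24lib.J1 (N * r) := rfl
  rw [h2, S24lib.finrank_J1, S24lib.finrank_J1,
    S20lib.dedekindPsi_mul_prime_of_not_dvd (NeZero.ne N) hr hrN] at h1
  have h3 : dedekindPsi N ≠ 0 := by
    rw [← S24lib.finrank_J1 N]
    haveI := S24lib.finiteDimensional_J1 N
    exact Module.finrank_pos.ne'
  rw [mul_comm] at h1
  exact Nat.eq_of_mul_eq_mul_right (Nat.pos_of_ne_zero h3) h1

/-- **(G2)** descent of KIL from level `N r` to level `N` (`r` prime, `r ∤ N`), for an exponent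
`m` prime to `r + 1`: norm argument. -/
theorem kilAt_of_mul (N r : ℕ) [NeZero N] (hr : r.Prime) (hrN : ¬ r ∣ N)
    (A : ValuationSubring (AlgebraicClosure ℚ)) {m : ℕ} (hm : 0 < m) (hmr : Nat.Coprime m (r + 1))
    (h : KILAt (N * r) A m) : KILAt N A m := by
  haveI : NeZero (N * r) := ⟨Nat.mul_ne_zero (NeZero.ne N) hr.ne_zero⟩
  have hle : modularFunctionFieldBar N ≤ modularFunctionFieldBar (N * r) :=
    bar_le (dvd_mul_right N r)
  letI : Algebra (modularFunctionFieldBar N) (modularFunctionFieldBar (N * r)) :=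
    (IntermediateField.inclusion hle).toRingHom.toAlgebra
  have hd := finrank_level N r hr hrN
  intro y₁ y₂ h₁ h₂ hred hne hdiv
  have hy₁ : (⟨_, h₁⟩ : modularFunctionFieldBar N) ≠ 0 := by
    intro h0
    have h3 : coeffMap A.subtype y₁ = 0 := congrArg Subtype.val h0
    have h4 : y₁ = 0 := Glue.inc_injective (by rw [h3, map_zero])
    exact hne (by rw [h4, map_zero])
  have hy₂ : (⟨_, h₂⟩ : modularFunctionFieldBar N) ≠ 0 := by
    intro h0
    have h3 : coeffMap A.subtype y₂ = 0 := congrArg Subtype.val h0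
    have h4 : y₂ = 0 := Glue.inc_injective (by rw [h3, map_zero])
    exact hne (by rw [hred, h4, map_zero])
  obtain ⟨ψ, hψ⟩ := h y₁ y₂ (hle h₁) (hle h₂) hred hne (by
    intro P'
    rcases exists_place_restrict (K := Qb) (K' := Qb)
      (algebraMap (modularFunctionFieldBar N) (modularFunctionFieldBar (N * r)))
      (fun a => rfl) P' with h0 | ⟨P, n, _, hP⟩
    · have e₁ := h0 ⟨_, h₁⟩
      have e₂ := h0 ⟨_, h₂⟩
      have e₁' : P'.ord (⟨_, hle h₁⟩ : modularFunctionFieldBar (N * r)) = 0 := e₁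
      have e₂' : P'.ord (⟨_, hle h₂⟩ : modularFunctionFieldBar (N * r)) = 0 := e₂
      rw [e₁', e₂', sub_zero]
      exact dvd_zero _
    · have e₁ := hP ⟨_, h₁⟩
      have e₂ := hP ⟨_, h₂⟩
      have e₁' : P'.ord (⟨_, hle h₁⟩ : modularFunctionFieldBar (N * r)) = _ := e₁
      have e₂' : P'.ord (⟨_, hle h₂⟩ : modularFunctionFieldBar (N * r)) = _ := e₂
      rw [e₁', e₂', ← mul_sub]
      exact Dvd.dvd.mul_left (hdiv P) _)
  have hψ' : ψ ^ m * algebraMap (modularFunctionFieldBar N) (modularFunctionFieldBar (N * r))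
      ⟨_, h₂⟩ = algebraMap (modularFunctionFieldBar N) (modularFunctionFieldBar (N * r))
      ⟨_, h₁⟩ := hψ
  have hn := congrArg (Algebra.norm (modularFunctionFieldBar N)) hψ'
  rw [map_mul, map_pow, Algebra.norm_algebraMap, Algebra.norm_algebraMap, hd] at hn
  set a₁ : modularFunctionFieldBar N := ⟨_, h₁⟩
  set a₂ : modularFunctionFieldBar N := ⟨_, h₂⟩
  obtain ⟨φ, hφ⟩ := exists_pow_eq_of_coprime hm hmr (x := a₁ * a₂⁻¹)
    (η := Algebra.norm (modularFunctionFieldBar N) ψ) (mul_ne_zero hy₁ (inv_ne_zero hy₂)) (by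
      rw [mul_pow, ← hn, inv_pow]
      field_simp)
  refine ⟨φ, ?_⟩
  rw [hφ]
  field_simp

end Level

end

end Fermat.Agent.ESlib
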