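import Mathlib
import Fermat.Agent.S24.PlaceBasic
import Fermat.Agent.S24.RHDeg

/-!
# ES, part K: existence of zeros (any characteristic)

`F / K` a function field in one variable, `u ∈ F` transcendental over `K`.  Then `u` has a zero:
there is a place `Q` of `F / K` with `0 < ord_Q u`.  No separability assumption.
Consequence: over an algebraically closed constant field a function without zeros and poles is
constant.
-/

set_option autoImplicit false
set_option linter.unusedSectionVars false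

open AlgebraicCurve Polynomial IntermediateField

namespace Fermat.Agent.ESlib

section val

variable {K F : Type*} [Field K] [Field F] [Algebra K F]
variable {Γ : Type*} [LinearOrderedCommGroupWithZero Γ] (v : Valuation F Γ)

/-- in a vanishing sum with a nonzero term two different nonzero terms have the same valuation -/
theorem exists_val_eq_of_sum_eq_zero {ι : Type*} [Fintype ι] (t : ι → F) (hsum : ∑ i, t i = 0)
    (hne : ∃ i, t i ≠ 0) : ∃ i j, i ≠ j ∧ t i ≠ 0 ∧ t j ≠ 0 ∧ v (t i) = v (t j) := by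
  classical
  obtain ⟨i₁, hi₁⟩ := hne
  obtain ⟨i₀, -, hmax⟩ := Finset.exists_max_image Finset.univ (fun i => v (t i)) ⟨i₁, Finset.mem_univ _⟩
  have h0 : v (t i₀) ≠ 0 := by
    intro h
    have := hmax i₁ (Finset.mem_univ _)
    rw [h] at this
    exact hi₁ ((v.zero_iff).1 (le_antisymm this zero_le))
  by_contra hcon
  push Not at hcon
  have hlt : ∀ i ∈ Finset.univ \ {i₀}, v (t i) < v (t i₀) := by
    intro i hi
    have hi' : i ≠ i₀ := by simpa using hi
    refine lt_of_le_of_ne (hmax i (Finset.mem_univ _)) ?_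
    intro heq
    have hti : t i ≠ 0 := by
      intro h
      rw [h, map_zero] at heq
      exact h0 heq.symm
    exact hcon i i₀ hi' hti ((v.ne_zero_iff).1 h0) heq
  have := v.map_sum_eq_of_lt (Finset.mem_univ i₀) hlt
  rw [hsum, map_zero] at this
  exact h0 this.symm

variable {v} {u : F}

/-- the valuation of a nonzero polynomial in `u` is a power of the valuation of `u` -/
theorem exists_val_aeval_eq_pow (hK : ∀ a : K, a ≠ 0 → v (algebraMap K F a) = 1) (hu : v u < 1) :
    ∀ (n : ℕ) (p : K[X]), p.natDegree ≤ n → p ≠ 0 → ∃ k : ℕ, v (aeval u p) = v u ^ k := by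
  have hle : ∀ p : K[X], v (aeval u p) ≤ 1 := by
    intro p
    rw [aeval_eq_sum_range]
    refine v.map_sum_le fun i _ => ?_
    rw [Algebra.smul_def, map_mul, map_pow]
    refine mul_le_one' ?_ (pow_le_one' hu.le _)
    by_cases h : p.coeff i = 0
    · rw [h, map_zero, map_zero]; exact zero_le
    · exact (hK _ h).le
  intro n
  induction n with
  | zero =>
    intro p hp hp0
    rw [Nat.le_zero] at hp
    rw [eq_C_of_natDegree_eq_zero hp] at hp0 ⊢
    refine ⟨0, ?_⟩
    rw [aeval_C, pow_zero]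
    exact hK _ (by simpa using hp0)
  | succ n ih =>
    intro p hp hp0
    have hdec : aeval u p = u * aeval u p.divX + algebraMap K F (p.coeff 0) := by
      have h := congrArg (aeval u) (divX_mul_X_add p)
      rw [map_add, map_mul, aeval_X, aeval_C] at h
      rw [← h, mul_comm]
    by_cases h0 : p.coeff 0 = 0
    · have hd0 : p.divX ≠ 0 := by
        intro h
        apply hp0
        rw [← divX_mul_X_add p, h, h0]
        simp
      obtain ⟨k, hk⟩ := ih p.divX (by rw [natDegree_divX_eq_natDegree_tsub_one]; omega) hd0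
      refine ⟨k + 1, ?_⟩
      rw [hdec, h0, map_zero, add_zero, map_mul, hk, pow_succ, mul_comm]
    · refine ⟨0, ?_⟩
      rw [hdec, pow_zero]
      have h1 : v (u * aeval u p.divX) < v (algebraMap K F (p.coeff 0)) := by
        rw [hK _ h0, map_mul]
        calc v u * v (aeval u p.divX) ≤ v u * 1 := by gcongr; exact hle _
          _ < 1 := by rwa [mul_one]
      rw [v.map_add_eq_of_lt_right h1, hK _ h0]

theorem exists_val_eq_zpow_of_mem_adjoin (hK : ∀ a : K, a ≠ 0 → v (algebraMap K F a) = 1)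
    (hu : v u < 1) (hu0 : u ≠ 0) {a : F} (ha : a ∈ K⟮u⟯) (ha0 : a ≠ 0) :
    ∃ k : ℤ, v a = v u ^ k := by
  obtain ⟨r, s, rfl⟩ := (mem_adjoin_simple_iff K a).1 ha
  have hr : r ≠ 0 := by
    rintro rfl
    simp at ha0
  have hs : s ≠ 0 := by
    rintro rfl
    simp at ha0
  obtain ⟨k₁, h₁⟩ := exists_val_aeval_eq_pow hK hu _ r le_rfl hr
  obtain ⟨k₂, h₂⟩ := exists_val_aeval_eq_pow hK hu _ s le_rfl hs
  refine ⟨k₁ - k₂, ?_⟩
  have hu0 : v u ≠ 0 := (v.ne_zero_iff).2 hu0
  rw [map_div₀, h₁, h₂, zpow_sub₀ hu0, zpow_natCast, zpow_natCast]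

/-- some bounded power of the valuation of `x` is a power of the valuation of `u` -/
theorem exists_val_pow_eq_zpow [FiniteDimensional K⟮u⟯ F]
    (hK : ∀ a : K, a ≠ 0 → v (algebraMap K F a) = 1)
    (hu : v u < 1) (hu0 : u ≠ 0) {x : F} (hx : x ≠ 0) :
    ∃ e : ℕ, 0 < e ∧ e ≤ Module.finrank K⟮u⟯ F ∧ ∃ k : ℤ, v x ^ e = v u ^ k := by
  classical
  set n := Module.finrank K⟮u⟯ F with hn
  have hdep : ¬ LinearIndependent K⟮u⟯ (fun i : Fin (n + 1) => x ^ (i : ℕ)) := by
    intro h
    have := h.fintype_card_le_finrank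
    rw [Fintype.card_fin] at this
    omega
  rw [Fintype.not_linearIndependent_iff] at hdep
  obtain ⟨g, hsum, i₁, hi₁⟩ := hdep
  obtain ⟨i, j, hij, hi, hj, hv⟩ := exists_val_eq_of_sum_eq_zero v
    (fun i : Fin (n + 1) => g i • x ^ (i : ℕ)) hsum
    ⟨i₁, smul_ne_zero hi₁ (pow_ne_zero _ hx)⟩
  have hvu0 : v u ≠ 0 := (v.ne_zero_iff).2 hu0
  have hvx0 : v x ≠ 0 := (v.ne_zero_iff).2 hx
  -- symmetric statement
  have key : ∀ i j : Fin (n + 1), (j : ℕ) < i → g i • x ^ (i : ℕ) ≠ 0 → g j • x ^ (j : ℕ) ≠ 0 →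
      v (g i • x ^ (i : ℕ)) = v (g j • x ^ (j : ℕ)) →
      ∃ e : ℕ, 0 < e ∧ e ≤ n ∧ ∃ k : ℤ, v x ^ e = v u ^ k := by
    intro i j hlt hi hj hv
    have hgi : (g i : F) ≠ 0 := by
      intro h
      apply hi
      rw [Algebra.smul_def]
      show (g i : F) * _ = 0
      rw [h, zero_mul]
    have hgj : (g j : F) ≠ 0 := by
      intro h
      apply hj
      rw [Algebra.smul_def]
      show (g j : F) * _ = 0
      rw [h, zero_mul]
    obtain ⟨ki, hki⟩ := exists_val_eq_zpow_of_mem_adjoin hK hu hu0 (g i).2 hgi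
    obtain ⟨kj, hkj⟩ := exists_val_eq_zpow_of_mem_adjoin hK hu hu0 (g j).2 hgj
    refine ⟨i - j, by omega, by omega, kj - ki, ?_⟩
    have hv' : v (g i : F) * v x ^ (i : ℕ) = v (g j : F) * v x ^ (j : ℕ) := by
      have h1 : g i • x ^ (i : ℕ) = (g i : F) * x ^ (i : ℕ) := by rw [Algebra.smul_def]; rfl
      have h2 : g j • x ^ (j : ℕ) = (g j : F) * x ^ (j : ℕ) := by rw [Algebra.smul_def]; rfl
      rw [h1, h2, map_mul, map_mul, map_pow, map_pow] at hv
      exact hv
    rw [hki, hkj] at hv'
    have hsplit : v x ^ (i : ℕ) = v x ^ ((i : ℕ) - j) * v x ^ (j : ℕ) := by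
      rw [← pow_add]; congr 1; omega
    rw [hsplit] at hv'
    have h3 : v u ^ ki * v x ^ ((i : ℕ) - j) = v u ^ kj := by
      apply mul_right_cancel₀ (pow_ne_zero (j : ℕ) hvx0)
      rw [mul_assoc]; exact hv'
    rw [zpow_sub₀ hvu0, ← h3]
    field_simp
  rcases lt_or_gt_of_ne (fun h => hij (Fin.ext h) : (i : ℕ) ≠ j) with h | h
  · exact key j i h hj hi hv.symm
  · exact key i j h hi hj hv

end val

section main

variable {K F : Type*} [Field K] [Field F] [Algebra K F]

/-- **Existence of zeros.** -/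
theorem exists_place_ord_pos (u : F) (hu : Transcendental K u) [FiniteDimensional K⟮u⟯ F] :
    ∃ Q : Place K F, 0 < Q.ord u := by
  classical
  have hu0 : u ≠ 0 := by
    rintro rfl
    exact hu isAlgebraic_zero
  -- a valuation subring containing `K[u]` in which `u` is not a unit
  let A : Subring F := (Algebra.adjoin K {u}).toSubring
  have huA : u ∈ A := Algebra.subset_adjoin (Set.mem_singleton u)
  have hI : Ideal.span {(⟨u, huA⟩ : A)} ≠ ⊤ := by
    intro h
    rw [Ideal.span_singleton_eq_top] at h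
    obtain ⟨⟨b, hb⟩, hb1⟩ := h.exists_right_inv
    have hb' : b ∈ Algebra.adjoin K {u} := hb
    rw [Algebra.adjoin_singleton_eq_range_aeval] at hb'
    obtain ⟨p, rfl⟩ := hb'
    have h1 : u * aeval u p = 1 := congrArg Subtype.val hb1
    apply hu
    refine ⟨X * p - 1, ?_, by simp [h1]⟩
    intro h0
    have := congrArg (fun q : K[X] => q.coeff 0) h0
    simp at this
  obtain ⟨V, hAV, hnon⟩ := Ideal.image_subset_nonunits_valuationSubring _ hI
  set v := V.valuation with hv
  have hvu : v u < 1 := by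
    have : u ∈ V.nonunits := hnon ⟨⟨u, huA⟩, Ideal.subset_span (Set.mem_singleton _), rfl⟩
    exact this
  have hKV : ∀ a : K, algebraMap K F a ∈ V := fun a => hAV (Subalgebra.algebraMap_mem _ a)
  have hK : ∀ a : K, a ≠ 0 → v (algebraMap K F a) = 1 := by
    intro a ha
    apply le_antisymm ((V.valuation_le_one_iff _).2 (hKV a))
    have h1 := (V.valuation_le_one_iff _).2 (hKV a⁻¹)
    rw [map_inv₀, map_inv₀] at h1
    have h0 : v (algebraMap K F a) ≠ 0 := (v.ne_zero_iff).2 (by simpa using ha)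
    exact (inv_le_one₀ (zero_lt_iff.2 h0)).1 h1
  have hvu0 : v u ≠ 0 := (v.ne_zero_iff).2 hu0
  set n := Module.finrank K⟮u⟯ F with hn
  have hpow : ∀ x : F, x ≠ 0 → ∃ k : ℤ, v x ^ n.factorial = v u ^ k := by
    intro x hx
    obtain ⟨e, he0, hen, k, hk⟩ := exists_val_pow_eq_zpow hK hvu hu0 hx
    obtain ⟨c, hc⟩ := Nat.dvd_factorial he0 hen
    refine ⟨k * c, ?_⟩
    rw [hc, pow_mul, hk, zpow_mul, zpow_natCast]
  have hinj : ∀ a b : ℤ, v u ^ a = v u ^ b → a = b := by
    intro a b hab
    exact zpow_right_injective₀ (zero_lt_iff.2 hvu0) hvu.ne hab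
  have hle : ∀ a b : ℤ, v u ^ a ≤ v u ^ b ↔ b ≤ a := by
    intro a b
    exact zpow_le_zpow_iff_right_of_lt_one₀ (zero_lt_iff.2 hvu0) hvu
  let w : F → ℤ := fun x => if hx : x = 0 then 0 else (hpow x hx).choose
  have hw : ∀ x : F, x ≠ 0 → v x ^ n.factorial = v u ^ w x := by
    intro x hx
    simp only [w, dif_neg hx]
    exact (hpow x hx).choose_spec
  obtain ⟨Q, m, hm, hQ⟩ := Fermat.Agent.S24lib.exists_place_of_valuation (K := K) w
    (fun f g hf hg => by
      apply hinj
      rw [← hw _ (mul_ne_zero hf hg), map_mul, mul_pow, hw f hf, hw g hg, zpow_add₀ hvu0])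
    (fun f g hf hg hfg => by
      rcases le_max_iff.1 (v.map_add f g) with h | h
      · refine (min_le_left _ _).trans ?_
        rw [← hle, ← hw _ hfg, ← hw f hf]
        exact pow_le_pow_left₀ zero_le h _
      · refine (min_le_right _ _).trans ?_
        rw [← hle, ← hw _ hfg, ← hw g hg]
        exact pow_le_pow_left₀ zero_le h _)
    (fun a ha => by
      apply hinj
      rw [← hw _ (by simpa using ha), hK a ha, one_pow, zpow_zero])
    ⟨u, hu0, by
      have : w u = n.factorial := by
        apply hinj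
        rw [← hw u hu0, zpow_natCast]
      rw [this]
      exact_mod_cast n.factorial_ne_zero⟩
  refine ⟨Q, ?_⟩
  have h1 : w u = n.factorial := by
    apply hinj
    rw [← hw u hu0, zpow_natCast]
  have h2 := hQ u hu0
  rw [h1] at h2
  have h3 : (0 : ℤ) < n.factorial := by exact_mod_cast n.factorial_pos
  by_contra hcon
  push Not at hcon
  have : (m : ℤ) * Q.ord u ≤ 0 := mul_nonpos_of_nonneg_of_nonpos (by positivity) hcon
  omega

/-- **A function without zeros is constant.** -/
theorem exists_const_of_forall_ord_le_zero [IsAlgClosed K] (hFF : Fermat.Agent.S24RH.IsFF K F)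
    (u : F) (h : ∀ Q : Place K F, Q.ord u ≤ 0) : ∃ c : K, u = algebraMap K F c := by
  by_contra hcon
  have htr : Transcendental K u := by
    apply Fermat.Agent.S24RH.transcendental_of_not_mem_range
    rintro ⟨c, hc⟩
    exact hcon ⟨c, hc.symm⟩
  have := hFF.finiteDimensional htr
  obtain ⟨Q, hQ⟩ := exists_place_ord_pos (K := K) u htr
  exact absurd (h Q) (by omega)

end main

end Fermat.Agent.ESlib
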