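import Fermat.Agent.ES.K.KILDef
import Fermat.Agent.S28.Descent

/-!
# ES library: S18 from KIL (glue with the frozen definitions)
-/

set_option autoImplicit false

open AlgebraicCurve ModularCurve

namespace Fermat.Agent.ESlib

noncomputable section

namespace Glue

variable {N : ℕ} {A : ValuationSubring (AlgebraicClosure ℚ)}

local notation "Qb" => AlgebraicClosure ℚ
local notation "κ" => IsLocalRing.ResidueField A
local notation "red" => coeffMap (IsLocalRing.residue A)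
local notation "inc" => coeffMap A.subtype
local notation "FQ" => modularFunctionFieldBar N
local notation "Fk" => modularFunctionFieldFullC (IsLocalRing.ResidueField A) N

/-- `y ∈ A((q))` represents `a ∈ F_ℚ̄(N)` and reduces to `b ∈ F_κ(N)`. -/
def Rep (y : LaurentSeries A) (a : modularFunctionFieldBar N)
    (b : modularFunctionFieldFullC (IsLocalRing.ResidueField A) N) : Prop :=
  (a : LaurentSeries Qb) = inc y ∧ (b : LaurentSeries κ) = red y

theorem inc_injective : Function.Injective (inc : LaurentSeries A → LaurentSeries Qb) :=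
  S28lib.coeffMap_injective A.subtype_injective

theorem Rep.one : Rep (N := N) (A := A) 1 1 1 := ⟨by simp, by simp⟩

theorem Rep.mul {y y' : LaurentSeries A} {a a' : FQ} {b b' : Fk} (h : Rep y a b)
    (h' : Rep y' a' b') : Rep (y * y') (a * a') (b * b') :=
  ⟨by rw [map_mul, ← h.1, ← h'.1]; rfl, by rw [map_mul, ← h.2, ← h'.2]; rfl⟩

theorem Rep.pow {y : LaurentSeries A} {a : FQ} {b : Fk} (h : Rep y a b) (n : ℕ) :
    Rep (y ^ n) (a ^ n) (b ^ n) :=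
  ⟨by rw [map_pow, ← h.1]; rfl, by rw [map_pow, ← h.2]; rfl⟩

theorem Rep.ne_zero {y : LaurentSeries A} {a : FQ} {b : Fk} (h : Rep y a b) (hb : b ≠ 0) :
    a ≠ 0 := by
  rintro rfl
  apply hb
  have h1 : inc y = 0 := h.1.symm
  have h2 : y = 0 := inc_injective (by rw [h1, map_zero])
  apply Subtype.ext
  rw [h.2, h2, map_zero]
  rfl

/-- Every element of the closure of the integral principal divisors is `div(y₁) - div(y₂)`,
compatibly with reduction. -/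
theorem closure_rep
    {r : Place Qb FQ → Place κ Fk}
    (hr : IsPlaceReductionAlong A (IsLocalRing.residue A) N r)
    {E : Divisor Qb FQ}
    (hE : E ∈ AddSubgroup.closure (integralPrincipalDivisors A (IsLocalRing.residue A) N)) :
    ∃ (y₁ y₂ : LaurentSeries A) (a₁ a₂ : FQ) (b₁ b₂ : Fk), Rep y₁ a₁ b₁ ∧ Rep y₂ a₂ b₂ ∧
      b₁ ≠ 0 ∧ b₂ ≠ 0 ∧ (∀ P, E P = P.ord a₁ - P.ord a₂) ∧
      ∀ Q, Finsupp.mapDomain r E Q = Q.ord b₁ - Q.ord b₂ := by
  induction hE using AddSubgroup.closure_induction with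
  | mem E hE =>
    obtain ⟨y, hy, hyk, hne, hD⟩ := hE
    refine ⟨y, 1, ⟨_, hy⟩, 1, ⟨_, hyk⟩, 1, ⟨rfl, rfl⟩, Rep.one, ?_, one_ne_zero, ?_, ?_⟩
    · intro h; exact hne (congrArg Subtype.val h)
    · intro P; rw [hD P, Place.ord_one, sub_zero]
    · intro Q; rw [hr.2 y hy hyk hne E hD Q, Place.ord_one, sub_zero]
  | zero =>
    exact ⟨1, 1, 1, 1, 1, 1, Rep.one, Rep.one, one_ne_zero, one_ne_zero, by simp, by simp⟩
  | add E E' _ _ hE hE' =>
    obtain ⟨y₁, y₂, a₁, a₂, b₁, b₂, h₁, h₂, hb₁, hb₂, hP, hQ⟩ := hE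
    obtain ⟨y₁', y₂', a₁', a₂', b₁', b₂', h₁', h₂', hb₁', hb₂', hP', hQ'⟩ := hE'
    refine ⟨y₁ * y₁', y₂ * y₂', a₁ * a₁', a₂ * a₂', b₁ * b₁', b₂ * b₂', h₁.mul h₁', h₂.mul h₂',
      mul_ne_zero hb₁ hb₁', mul_ne_zero hb₂ hb₂', ?_, ?_⟩
    · intro P
      rw [Finsupp.add_apply, hP, hP', P.ord_mul (h₁.ne_zero hb₁) (h₁'.ne_zero hb₁'),
        P.ord_mul (h₂.ne_zero hb₂) (h₂'.ne_zero hb₂')]
      ring
    · intro Q
      rw [Finsupp.mapDomain_add, Finsupp.add_apply, hQ, hQ', Q.ord_mul hb₁ hb₁',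
        Q.ord_mul hb₂ hb₂']
      ring
  | neg E _ hE =>
    obtain ⟨y₁, y₂, a₁, a₂, b₁, b₂, h₁, h₂, hb₁, hb₂, hP, hQ⟩ := hE
    refine ⟨y₂, y₁, a₂, a₁, b₂, b₁, h₂, h₁, hb₂, hb₁, ?_, ?_⟩
    · intro P
      rw [Finsupp.neg_apply, hP]; ring
    · intro Q
      rw [← Finsupp.mapDomain.addMonoidHom_apply, map_neg, Finsupp.mapDomain.addMonoidHom_apply,
        Finsupp.neg_apply, hQ]
      ring

theorem Rep.add {y y' : LaurentSeries A} {a a' : FQ} {b b' : Fk} (h : Rep y a b)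
    (h' : Rep y' a' b') : Rep (y + y') (a + a') (b + b') :=
  ⟨by rw [map_add, ← h.1, ← h'.1]; rfl, by rw [map_add, ← h.2, ← h'.2]; rfl⟩

theorem Rep.zero : Rep (N := N) (A := A) 0 0 0 := ⟨by simp, by simp⟩

theorem Rep.const (c : A) : Rep (N := N) (HahnSeries.single 0 c) (algebraMap Qb FQ (c : Qb))
    (algebraMap κ Fk (IsLocalRing.residue A c)) := by
  constructor
  · rw [coeffMap_single]
    show algebraMap Qb (LaurentSeries Qb) (c : Qb) = _
    rw [algebraMap_laurentSeries_eq_single]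
    rfl
  · rw [coeffMap_single]
    show algebraMap κ (LaurentSeries κ) _ = _
    rw [algebraMap_laurentSeries_eq_single]

theorem jAd_mem_bar {d : ℕ} [NeZero d] (hd : d ∣ N) :
    S28lib.jAd Qb d ∈ modularFunctionFieldBar N := by
  have h1 : coeffEmb Qb (qExpand ℚ d jq) ∈ modularFunctionFieldBar N :=
    coeffEmb_mem_laurentBaseChange Qb (jqd_mem_full N hd)
  have h2 : coeffEmb Qb (qExpand ℚ d jq) = S28lib.jAd Qb d :=
    S28lib.coeffMap_jAd (algebraMap ℚ Qb) d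
  rwa [h2] at h1

theorem Rep.gen {d : ℕ} [NeZero d] (hd : d ∣ N) :
    Rep (N := N) (A := A) (S28lib.jAd A d) ⟨_, jAd_mem_bar hd⟩ ⟨_, jqModCd_mem_full κ N hd⟩ :=
  ⟨(S28lib.coeffMap_jAd _ d).symm, (S28lib.coeffMap_jAd _ d).symm⟩

/-- `x ∈ κ((q))` is a quotient of reductions of integral elements of `F_ℚ̄(N)`. -/
def Liftable (N : ℕ) (A : ValuationSubring (AlgebraicClosure ℚ))
    (x : LaurentSeries (IsLocalRing.ResidueField A)) : Prop :=
  ∃ (y₁ y₂ : LaurentSeries A) (a₁ a₂ : modularFunctionFieldBar N)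
    (b₁ b₂ : modularFunctionFieldFullC (IsLocalRing.ResidueField A) N),
    Rep y₁ a₁ b₁ ∧ Rep y₂ a₂ b₂ ∧ b₂ ≠ 0 ∧
      x * (b₂ : LaurentSeries (IsLocalRing.ResidueField A)) = b₁

theorem liftable_of_mem {x : LaurentSeries κ} (hx : x ∈ Fk) : Liftable N A x := by
  induction hx using IntermediateField.adjoin_induction with
  | mem x hx =>
    obtain ⟨d, hd0, hd, rfl⟩ := hx
    exact ⟨_, 1, _, 1, _, 1, Rep.gen hd, Rep.one, one_ne_zero, by simp⟩
  | algebraMap c =>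
    obtain ⟨c, rfl⟩ := IsLocalRing.residue_surjective c
    exact ⟨_, 1, _, 1, _, 1, Rep.const c, Rep.one, one_ne_zero, by simp⟩
  | add x x' _ _ hx hx' =>
    obtain ⟨y₁, y₂, a₁, a₂, b₁, b₂, h₁, h₂, hb₂, hx⟩ := hx
    obtain ⟨y₁', y₂', a₁', a₂', b₁', b₂', h₁', h₂', hb₂', hx'⟩ := hx'
    refine ⟨_, _, _, _, _, _, (h₁.mul h₂').add (h₁'.mul h₂), h₂.mul h₂', mul_ne_zero hb₂ hb₂', ?_⟩
    push_cast
    rw [← hx, ← hx']
    ring
  | inv x _ hx =>
    obtain ⟨y₁, y₂, a₁, a₂, b₁, b₂, h₁, h₂, hb₂, hx⟩ := hx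
    rcases eq_or_ne x 0 with rfl | hx0
    · exact ⟨0, 1, 0, 1, 0, 1, Rep.zero, Rep.one, one_ne_zero, by simp⟩
    · have hb₂' : (b₂ : LaurentSeries κ) ≠ 0 := fun h => hb₂ (Subtype.ext h)
      refine ⟨_, _, _, _, _, _, h₂, h₁, ?_, ?_⟩
      · intro h
        rw [h] at hx
        exact (mul_ne_zero hx0 hb₂') hx
      · rw [← hx]
        field_simp
  | mul x x' _ _ hx hx' =>
    obtain ⟨y₁, y₂, a₁, a₂, b₁, b₂, h₁, h₂, hb₂, hx⟩ := hx
    obtain ⟨y₁', y₂', a₁', a₂', b₁', b₂', h₁', h₂', hb₂', hx'⟩ := hx'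
    refine ⟨_, _, _, _, _, _, h₁.mul h₁', h₂.mul h₂', mul_ne_zero hb₂ hb₂', ?_⟩
    push_cast
    rw [← hx, ← hx']
    ring

theorem lift_rep (x : Fk) : ∃ (y₁ y₂ : LaurentSeries A) (a₁ a₂ : FQ) (b₁ b₂ : Fk),
    Rep y₁ a₁ b₁ ∧ Rep y₂ a₂ b₂ ∧ b₂ ≠ 0 ∧ x * b₂ = b₁ := by
  obtain ⟨y₁, y₂, a₁, a₂, b₁, b₂, h₁, h₂, hb₂, hx⟩ := liftable_of_mem x.2
  exact ⟨y₁, y₂, a₁, a₂, b₁, b₂, h₁, h₂, hb₂, Subtype.ext hx⟩

/-- `m`-th roots in the residue field -/
theorem exists_pow_eq_residue {m : ℕ} (hm : 0 < m) (c : κ) : ∃ d : A, IsLocalRing.residue A d ^ m = c := by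
  obtain ⟨c, rfl⟩ := IsLocalRing.residue_surjective c
  obtain ⟨z, hz⟩ := IsAlgClosed.exists_pow_nat_eq (c : Qb) hm
  have hzA : z ∈ A := by
    rcases A.mem_or_inv_mem z with h | h
    · exact h
    · rcases eq_or_ne z 0 with rfl | hz0
      · exact A.zero_mem
      have : z = z ^ m * z⁻¹ ^ (m - 1) := by
        obtain ⟨k, rfl⟩ : ∃ k, m = k + 1 := ⟨m - 1, by omega⟩
        rw [Nat.add_sub_cancel, pow_succ, inv_pow]
        field_simp
      rw [this, hz]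
      exact A.mul_mem _ _ c.2 (pow_mem h _)
  refine ⟨⟨z, hzA⟩, ?_⟩
  rw [← map_pow]
  congr 1
  exact Subtype.ext hz

/-- **S18 for one exponent `m`**, from KIL and the fact that functions without zeros and poles
on the reduction are constant. -/
theorem eq_zero_of_kil [NeZero N] (h : ReductionInputsModL A N) {m : ℕ} (hm : 0 < m)
    (hKIL : KILAt N A m)
    (hconst : ∀ x : Fk, x ≠ 0 → (∀ Q : Place κ Fk, Q.ord x = 0) → ∃ c : κ, algebraMap κ Fk c = x)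
    (z : JZero N) (hmz : m • z = 0) (hz : reductionModL A N z = 0) : z = 0 := by
  obtain ⟨D, rfl⟩ := Pic0.mk_surjective z
  set r := placeReductionModL h with hrdef
  have hr : IsPlaceReductionModL A N r := isPlaceReductionModL_placeReductionModL h
  have hgen : PrincipalGeneratedByIntegral A (IsLocalRing.residue A) N := h.choose_spec.2
  -- `m D` is principal
  have h1 : ((m • D : Divisor.degZero (K := Qb) (F := FQ)) : Divisor Qb FQ) ∈
      Divisor.principal (K := Qb) (F := FQ) := by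
    have : Pic0.mk (m • D) = 0 := hmz
    have h2 := (QuotientAddGroup.eq_zero_iff _).1 this
    exact h2
  -- `r_* D` is principal
  have h2 : Finsupp.mapDomain r (D : Divisor Qb FQ) ∈ Divisor.principal (K := κ) (F := Fk) := by
    rw [reductionModL_mk h] at hz
    have h3 := (QuotientAddGroup.eq_zero_iff _).1 hz
    exact h3
  obtain ⟨g, hg0, hg⟩ := h2
  obtain ⟨y₁, y₂, a₁, a₂, b₁, b₂, r₁, r₂, hb₁, hb₂, hP, hQ⟩ := closure_rep hr (hgen h1)
  have hmD : ∀ P : Place Qb FQ, (m : ℤ) * (D : Divisor Qb FQ) P = P.ord a₁ - P.ord a₂ := by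
    intro P
    rw [← hP P]
    simp
  have hmQ : ∀ Q : Place κ Fk, (m : ℤ) * Q.ord g = Q.ord b₁ - Q.ord b₂ := by
    intro Q
    rw [← hQ Q, ← hg Q]
    have : ((m • D : Divisor.degZero (K := Qb) (F := FQ)) : Divisor Qb FQ) =
        m • (D : Divisor Qb FQ) := rfl
    rw [this, Finsupp.mapDomain_smul]
    simp
  -- the quotient is a constant
  obtain ⟨c, hc⟩ := hconst (b₁ * (b₂ * g ^ m)⁻¹)
    (mul_ne_zero hb₁ (inv_ne_zero (mul_ne_zero hb₂ (pow_ne_zero _ hg0)))) (by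
      intro Q
      rw [Q.ord_mul hb₁ (inv_ne_zero (mul_ne_zero hb₂ (pow_ne_zero _ hg0))), Q.ord_inv,
        Q.ord_mul hb₂ (pow_ne_zero _ hg0), ← zpow_natCast, Q.ord_zpow]
      have := hmQ Q
      linarith)
  obtain ⟨d, hd⟩ := exists_pow_eq_residue (A := A) hm c
  have hc0 : c ≠ 0 := by
    rintro rfl
    rw [map_zero] at hc
    exact (mul_ne_zero hb₁ (inv_ne_zero (mul_ne_zero hb₂ (pow_ne_zero _ hg0)))) hc.symm
  have hd0 : IsLocalRing.residue A d ≠ 0 := by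
    intro h0
    rw [h0, zero_pow hm.ne'] at hd
    exact hc0 hd.symm
  -- lift `g`
  obtain ⟨u₁, u₂, e₁, e₂, f₁, f₂, s₁, s₂, hf₂, hgf⟩ := lift_rep (N := N) (A := A) g
  have hf₁ : f₁ ≠ 0 := by rw [← hgf]; exact mul_ne_zero hg0 hf₂
  have rd := Rep.const (N := N) d
  set dk : Fk := algebraMap κ Fk (IsLocalRing.residue A d) with hdk
  have hdk0 : dk ≠ 0 := by
    rw [hdk, Ne, map_eq_zero]; exact hd0
  -- the two integral series
  have R₁ := r₁.mul (s₂.pow m)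
  have R₂ := r₂.mul ((rd.mul s₁).pow m)
  have hb : b₁ * f₂ ^ m = b₂ * (dk * f₁) ^ m := by
    have h3 : b₁ = algebraMap κ Fk c * (b₂ * g ^ m) := by
      rw [hc]
      field_simp
    rw [h3, ← hd, map_pow, ← hgf, ← hdk]
    ring
  set dq : FQ := algebraMap Qb FQ (d : Qb) with hdq
  have ha₁ : a₁ ≠ 0 := r₁.ne_zero hb₁
  have ha₂ : a₂ ≠ 0 := r₂.ne_zero hb₂
  have he₁ : e₁ ≠ 0 := s₁.ne_zero hf₁
  have he₂ : e₂ ≠ 0 := s₂.ne_zero hf₂
  have hdq0 : dq ≠ 0 := rd.ne_zero hdk0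
  have m₁ : inc (y₁ * u₂ ^ m) ∈ FQ := R₁.1 ▸ (a₁ * e₂ ^ m).2
  have m₂ : inc (y₂ * (HahnSeries.single 0 d * u₁) ^ m) ∈ FQ := R₂.1 ▸ (a₂ * (dq * e₁) ^ m).2
  have hα₁ : (⟨_, m₁⟩ : FQ) = a₁ * e₂ ^ m := Subtype.ext R₁.1.symm
  have hα₂ : (⟨_, m₂⟩ : FQ) = a₂ * (dq * e₁) ^ m := Subtype.ext R₂.1.symm
  obtain ⟨ψ, hψ⟩ := hKIL _ _ m₁ m₂
    (by rw [← R₁.2, ← R₂.2, hb])
    (by
      rw [← R₁.2]
      intro h0
      exact (mul_ne_zero hb₁ (pow_ne_zero m hf₂)) (Subtype.ext h0))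
    (by
      intro P
      rw [hα₁, hα₂, P.ord_mul ha₁ (pow_ne_zero _ he₂),
        P.ord_mul ha₂ (pow_ne_zero _ (mul_ne_zero hdq0 he₁)), ← zpow_natCast, ← zpow_natCast,
        P.ord_zpow, P.ord_zpow]
      refine ⟨(D : Divisor Qb FQ) P + P.ord e₂ - P.ord (dq * e₁), ?_⟩
      have := hmD P
      linarith)
  rw [hα₁, hα₂] at hψ
  have hψ0 : ψ ≠ 0 := by
    rintro rfl
    rw [zero_pow hm.ne', zero_mul] at hψ
    exact (mul_ne_zero ha₁ (pow_ne_zero _ he₂)) hψ.symm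
  have hφ0 : ψ * (dq * e₁) * e₂⁻¹ ≠ 0 :=
    mul_ne_zero (mul_ne_zero hψ0 (mul_ne_zero hdq0 he₁)) (inv_ne_zero he₂)
  have hφ : (ψ * (dq * e₁) * e₂⁻¹) ^ m * a₂ = a₁ := by
    have : (ψ * (dq * e₁) * e₂⁻¹) ^ m * a₂ = (ψ ^ m * (a₂ * (dq * e₁) ^ m)) * (e₂ ^ m)⁻¹ := by
      rw [mul_pow, mul_pow, inv_pow]; ring
    rw [this, hψ]
    field_simp
  refine (QuotientAddGroup.eq_zero_iff _).2 ?_
  show (D : Divisor Qb FQ) ∈ Divisor.principal (K := Qb) (F := FQ)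
  refine ⟨ψ * (dq * e₁) * e₂⁻¹, hφ0, fun P => ?_⟩
  have h4 := hmD P
  rw [← hφ, P.ord_mul (pow_ne_zero _ hφ0) ha₂, ← zpow_natCast, P.ord_zpow] at h4
  have hm' : (m : ℤ) ≠ 0 := by exact_mod_cast hm.ne'
  have h5 : (m : ℤ) * (D : Divisor Qb FQ) P = (m : ℤ) * P.ord (ψ * (dq * e₁) * e₂⁻¹) := by
    linarith
  exact mul_left_cancel₀ hm' h5

/-- **S18**, from KIL for prime exponents `≠ ℓ` and the constancy of functions without zeros and
poles on the reduction. -/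
theorem s18_of_kil [NeZero N] {ℓ : ℕ} (h : ReductionInputsModL A N)
    (hKIL : ∀ p : ℕ, p.Prime → p ≠ ℓ → KILAt N A p)
    (hconst : ∀ x : Fk, x ≠ 0 → (∀ Q : Place κ Fk, Q.ord x = 0) → ∃ c : κ, algebraMap κ Fk c = x)
    (m : ℕ) (hm : ¬ ℓ ∣ m) (z : JZero N) (hmz : m • z = 0) (hz : reductionModL A N z = 0) :
    z = 0 := by
  induction m using induction_on_primes generalizing z with
  | zero => exact absurd (dvd_zero ℓ) hm
  | one => simpa using hmz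
  | prime_mul p a hp ih =>
    have hpl : p ≠ ℓ := by
      rintro rfl
      exact hm (Dvd.intro _ rfl)
    have ha : ¬ ℓ ∣ a := fun h' => hm (Dvd.dvd.mul_left h' p)
    have h1 : a • z = 0 := by
      apply eq_zero_of_kil h hp.pos (hKIL p hp hpl) hconst
      · rw [← mul_smul]; exact hmz
      · rw [map_nsmul, hz, smul_zero]
    exact ih ha z h1 hz

end Glue

end

end Fermat.Agent.ESlib
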